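import Fermat.Agent.DeligneSerre.Periods.Hecke
import Fermat.Agent.Periods.ParabolicBasis
import Mathlib.Algebra.Algebra.ZMod
import Mathlib.LinearAlgebra.TensorProduct.Tower
import Mathlib.LinearAlgebra.TensorProduct.Basis
import Mathlib.GroupTheory.Schreier
import Mathlib.NumberTheory.Modular

/-!
# Extension of coefficients in the cuspidal cohomology of `Γ₁(M)`

`k ⊗ cuspidalHoms (ℤ/ℓ) → Hom(Γ₁(M), k)` is injective with image `cuspidalHoms k`.
-/

set_option autoImplicit false

noncomputable section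

open CongruenceSubgroup
open scoped TensorProduct

namespace Fermat.Agent.DeligneSerre.Residual

open Fermat.Agent.Periods (cuspidalHoms)

variable (M ℓ : ℕ)

/-- The cuspidal cohomology of `Γ₁(M)` mod `ℓ`. -/
abbrev Coh := cuspidalHoms (ZMod ℓ) (Gamma1 M) (ZMod ℓ)

theorem groupFG_gamma1 [NeZero M] : Group.FG (Gamma1 M) := by
  have : Group.FG (Matrix.SpecialLinearGroup (Fin 2) ℤ) := Periods.groupFG_SL2Z
  exact Subgroup.fg_of_index_ne_zero _

instance [NeZero M] [Fact ℓ.Prime] : Module.Finite (ZMod ℓ) (Coh M ℓ) := by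
  obtain ⟨S, hS⟩ := (groupFG_gamma1 M).out
  let f : Coh M ℓ →ₗ[ZMod ℓ] (↥S → ZMod ℓ) :=
    { toFun := fun φ s => (φ : Additive (Gamma1 M) →+ ZMod ℓ) (Additive.ofMul s.1)
      map_add' := fun _ _ => rfl
      map_smul' := fun _ _ => rfl }
  refine Module.Finite.of_injective f fun φ ψ h => Subtype.ext (AddMonoidHom.ext fun x => ?_)
  obtain ⟨γ, rfl⟩ := Additive.ofMul.surjective x
  have hγ : γ ∈ Subgroup.closure (S : Set (Gamma1 M)) := hS ▸ Subgroup.mem_top γ
  induction hγ using Subgroup.closure_induction with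
  | mem s hs => exact congrFun h ⟨s, hs⟩
  | one => rw [ofMul_one, map_zero, map_zero]
  | mul a b _ _ ha hb => rw [ofMul_mul, map_add, map_add, ha, hb]
  | inv a _ ha => rw [ofMul_inv, map_neg, map_neg, ha]

variable (k : Type*) [Field k] [Algebra (ZMod ℓ) k]

/-- Extension of coefficients. -/
def extend : k ⊗[ZMod ℓ] Coh M ℓ →ₗ[k] (Additive (Gamma1 M) →+ k) :=
  TensorProduct.AlgebraTensorModule.lift
    { toFun := fun c =>
        { toFun := fun φ =>
            c • (algebraMap (ZMod ℓ) k).toAddMonoidHom.comp (φ : Additive (Gamma1 M) →+ ZMod ℓ)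
          map_add' := fun φ ψ => by ext x; simp [mul_add]
          map_smul' := fun r φ => by ext x; simp [Algebra.smul_def]; ring }
      map_add' := fun c d => by ext φ x; simp [add_mul]
      map_smul' := fun c d => by ext φ x; simp [mul_assoc] }

variable {M ℓ k}

theorem extend_tmul (c : k) (φ : Coh M ℓ) (x : Additive (Gamma1 M)) :
    extend M ℓ k (c ⊗ₜ φ) x = c * algebraMap (ZMod ℓ) k ((φ : Additive (Gamma1 M) →+ ZMod ℓ) x) :=
  rfl

theorem extend_injective [Fact ℓ.Prime] : Function.Injective (extend M ℓ k) := by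
  refine (injective_iff_map_eq_zero _).mpr fun z hz => ?_
  set b := Module.Free.chooseBasis (ZMod ℓ) k
  obtain ⟨c, rfl⟩ := (TensorProduct.equivFinsuppOfBasisLeft b).symm.surjective z
  suffices c = 0 by rw [this, map_zero]
  ext i x
  obtain ⟨γ, rfl⟩ := Additive.ofMul.surjective x
  have h : extend M ℓ k ((TensorProduct.equivFinsuppOfBasisLeft b).symm c) (Additive.ofMul γ) = 0 :=
    by rw [hz]; rfl
  have h' : (c.sum fun j φ => ((φ : Additive (Gamma1 M) →+ ZMod ℓ) (Additive.ofMul γ)) • b j) = 0 := by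
    rw [← h, TensorProduct.equivFinsuppOfBasisLeft_symm_apply, map_finsuppSum,
      Finsupp.sum, Finsupp.sum, AddMonoidHom.finsetSum_apply]
    refine Finset.sum_congr rfl fun j _ => ?_
    rw [extend_tmul, Algebra.smul_def, mul_comm]
  have hli := linearIndependent_iff'.mp b.linearIndependent c.support
    (fun j => (c j : Additive (Gamma1 M) →+ ZMod ℓ) (Additive.ofMul γ)) h'
  by_cases hi : i ∈ c.support
  · exact hli i hi
  · rw [Finsupp.notMem_support_iff.mp hi]; rfl

theorem exists_extend_eq [NeZero M] [Fact ℓ.Prime] {φ : Additive (Gamma1 M) →+ k}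
    (hφ : φ ∈ cuspidalHoms k (Gamma1 M) k) : ∃ z, extend M ℓ k z = φ := by
  classical
  set b := Module.Free.chooseBasis (ZMod ℓ) k
  obtain ⟨S, hS⟩ := (groupFG_gamma1 M).out
  set I := S.biUnion fun s => (b.repr (φ (Additive.ofMul s))).support
  have hI : ∀ γ : Gamma1 M, (b.repr (φ (Additive.ofMul γ))).support ⊆ I := by
    intro γ
    have hγ : γ ∈ Subgroup.closure (S : Set (Gamma1 M)) := hS ▸ Subgroup.mem_top γ
    induction hγ using Subgroup.closure_induction with
    | mem s hs =>
      exact Finset.subset_biUnion_of_mem (fun s => (b.repr (φ (Additive.ofMul s))).support) hs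
    | one => simp
    | mul x y _ _ hx hy =>
      rw [ofMul_mul, map_add, map_add]
      exact Finsupp.support_add.trans (Finset.union_subset hx hy)
    | inv x _ hx => rwa [ofMul_inv, map_neg, map_neg, Finsupp.support_neg]
  let ψ : Module.Free.ChooseBasisIndex (ZMod ℓ) k → Coh M ℓ := fun i =>
    ⟨(b.coord i).toAddMonoidHom.comp φ, fun γ hγ => by
      show b.coord i (φ (Additive.ofMul γ)) = 0
      rw [hφ γ hγ, map_zero]⟩
  refine ⟨∑ i ∈ I, b i ⊗ₜ ψ i, AddMonoidHom.ext fun x => ?_⟩
  obtain ⟨γ, rfl⟩ := Additive.ofMul.surjective x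
  rw [map_sum, AddMonoidHom.finsetSum_apply]
  conv_rhs => rw [← b.linearCombination_repr (φ (Additive.ofMul γ)),
    Finsupp.linearCombination_apply, Finsupp.sum_of_support_subset _ (hI γ) _ (by simp)]
  refine Finset.sum_congr rfl fun i _ => ?_
  rw [extend_tmul, Algebra.smul_def, mul_comm]
  rfl

/-- An operator on mod `ℓ` cohomology compatible with an operator on `k`-valued homomorphisms. -/
theorem extend_baseChange {f : Coh M ℓ →ₗ[ZMod ℓ] Coh M ℓ}
    {F : (Additive (Gamma1 M) →+ k) →ₗ[k] (Additive (Gamma1 M) →+ k)}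
    (h : ∀ φ : Coh M ℓ,
      F ((algebraMap (ZMod ℓ) k).toAddMonoidHom.comp (φ : Additive (Gamma1 M) →+ ZMod ℓ)) =
        (algebraMap (ZMod ℓ) k).toAddMonoidHom.comp (f φ : Additive (Gamma1 M) →+ ZMod ℓ))
    (z : k ⊗[ZMod ℓ] Coh M ℓ) :
    extend M ℓ k (f.baseChange k z) = F (extend M ℓ k z) := by
  induction z using TensorProduct.induction_on with
  | zero => simp
  | tmul c φ =>
    rw [LinearMap.baseChange_tmul]
    show c • _ = F (c • _)
    rw [map_smul, h]
  | add x y hx hy => rw [map_add, map_add, hx, hy, map_add, map_add]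

end Fermat.Agent.DeligneSerre.Residual
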