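import Fermat.Agent.Deformation.Schur
import Mathlib.LinearAlgebra.Matrix.Charpoly.Coeff
import Mathlib.LinearAlgebra.Matrix.GeneralLinearGroup.Defs
import Mathlib.LinearAlgebra.Matrix.Trace
import Mathlib.LinearAlgebra.FiniteDimensional.Basic
import Mathlib.FieldTheory.IsAlgClosed.Basic
import Mathlib.Algebra.Ring.GeomSum

/-!
# Two-dimensional representations from a quadratic relation

If every element `g` of a group acts on a non-zero finite-dimensional space by an endomorphism
killed by some `X² - t X + δ g`, with `δ` a character, then there is a two-dimensional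
representation, irreducible or diagonal, with determinant `δ` and trace any `a` for which
`X² - a X + δ g` kills `g`: the simple constituents have dimension at most two.
-/

set_option autoImplicit false

noncomputable section

namespace Fermat.Agent.DeligneSerre.Residual

open Matrix

variable {k : Type*} [Field k]

/-- If `x² - a x + d = 0`, every power of `x` satisfies such a relation with constant `dᵇ`. -/
theorem exists_quadratic_pow [IsAlgClosed k] {R : Type*} [Ring R] [Algebra k R] {x : R} {a d : k}
    (h : x * x - a • x + d • 1 = 0) (b : ℕ) :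
    ∃ t : k, x ^ b * x ^ b - t • x ^ b + d ^ b • 1 = 0 := by
  obtain ⟨r, hr⟩ := IsAlgClosed.exists_root
    (Polynomial.X ^ 2 - Polynomial.C a * Polynomial.X + Polynomial.C d : Polynomial k) (by
      have : (Polynomial.X ^ 2 - Polynomial.C a * Polynomial.X + Polynomial.C d :
          Polynomial k).degree = 2 := by compute_degree!
      rw [this]; norm_num)
  simp only [Polynomial.IsRoot, Polynomial.eval_add, Polynomial.eval_sub, Polynomial.eval_pow,
    Polynomial.eval_X, Polynomial.eval_mul, Polynomial.eval_C] at hr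
  refine ⟨r ^ b + (a - r) ^ b, ?_⟩
  have hd : d = r * (a - r) := by linear_combination hr
  obtain ⟨u, hu⟩ : (Polynomial.X - Polynomial.C r) * (Polynomial.X - Polynomial.C (a - r)) ∣
      (Polynomial.X ^ b - Polynomial.C r ^ b) * (Polynomial.X ^ b - Polynomial.C (a - r) ^ b) :=
    mul_dvd_mul (sub_dvd_pow_sub_pow _ _ _) (sub_dvd_pow_sub_pow _ _ _)
  have hzero : Polynomial.aeval x
      ((Polynomial.X - Polynomial.C r) * (Polynomial.X - Polynomial.C (a - r))) = 0 := by
    rw [← h, hd]
    simp only [map_mul, map_sub, Polynomial.aeval_X, Polynomial.aeval_C, Algebra.algebraMap_eq_smul_one,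
      sub_mul, mul_sub, smul_mul_assoc, mul_smul_comm, one_mul, mul_one, smul_smul]
    module
  have := congrArg (Polynomial.aeval x) hu
  rw [map_mul _ ((Polynomial.X - Polynomial.C r) * _) u, hzero, zero_mul] at this
  simp only [map_mul, map_sub, map_pow, Polynomial.aeval_X, Polynomial.aeval_C] at this
  rw [← map_sub, ← map_pow, ← map_pow, Algebra.algebraMap_eq_smul_one, Algebra.algebraMap_eq_smul_one] at this
  rw [hd, mul_pow, ← this]
  simp only [sub_mul, mul_sub, smul_mul_assoc, mul_smul_comm, one_mul, mul_one, smul_smul]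
  module

section Matrices

variable {G : Type*} [Group G] {n : ℕ} (δ : G →* kˣ) (M : G →* Matrix (Fin n) (Fin n) k)

theorem smul_inv_eq_of_quadratic {g : G} {t : k}
    (h : M g * M g - t • M g + (δ g : k) • 1 = 0) :
    (δ g : k) • M g⁻¹ = t • 1 - M g := by
  have h1 := congrArg (fun X => X * M g⁻¹) h
  simp only [sub_mul, add_mul, smul_mul_assoc, one_mul, zero_mul, mul_assoc, ← map_mul,
    mul_inv_cancel, map_one, mul_one] at h1
  rw [eq_neg_of_add_eq_zero_right h1, neg_sub]

theorem exists_nonscalar (hn : 2 ≤ n) (hspan : Submodule.span k (Set.range M) = ⊤) :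
    ∃ g, ∀ c : k, M g ≠ c • 1 := by
  by_contra hall
  push Not at hall
  have hle : Submodule.span k (Set.range M) ≤ k ∙ (1 : Matrix (Fin n) (Fin n) k) := by
    rw [Submodule.span_le]
    rintro _ ⟨g, rfl⟩
    obtain ⟨c, hc⟩ := hall g
    rw [hc]
    exact Submodule.mem_span_singleton.mpr ⟨c, rfl⟩
  rw [hspan] at hle
  obtain ⟨c, hc⟩ := Submodule.mem_span_singleton.mp
    (hle (Submodule.mem_top (x := Matrix.single (⟨0, by omega⟩ : Fin n) ⟨1, by omega⟩ (1 : k))))
  simpa [Matrix.single_apply, Matrix.one_apply, Fin.ext_iff] using congrFun (congrFun hc ⟨0, by omega⟩) ⟨1, by omega⟩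

/-- An irreducible group in which every element is quadratic with constant term a character has
dimension at most two: the adjugate `g ↦ δ g • g⁻¹` would extend to an anti-endomorphism `x*` of
the matrix algebra with `x + x*` scalar. -/
theorem dim_le_two (hspan : Submodule.span k (Set.range M) = ⊤)
    (hquad : ∀ g, ∃ t : k, M g * M g - t • M g + (δ g : k) • 1 = 0) : n ≤ 2 := by
  classical
  by_contra hn
  choose t ht using hquad
  set star : G → Matrix (Fin n) (Fin n) k := fun g => (δ g : k) • M g⁻¹ with hstar
  have hstar_eq : ∀ g, star g = t g • 1 - M g := fun g => smul_inv_eq_of_quadratic δ M (ht g)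
  have hstar_mul : ∀ g h, star (g * h) = star h * star g := by
    intro g h
    simp only [hstar, map_mul, _root_.mul_inv_rev, Units.val_mul, smul_mul_assoc, mul_smul_comm,
      smul_smul, mul_comm]
  set Φ₁ : (G →₀ k) →ₗ[k] Matrix (Fin n) (Fin n) k := Finsupp.linearCombination k M
  set Φ₂ : (G →₀ k) →ₗ[k] Matrix (Fin n) (Fin n) k := Finsupp.linearCombination k star
  set τ₀ : (G →₀ k) →ₗ[k] k := Finsupp.linearCombination k t
  have hsum : ∀ c, Φ₂ c = τ₀ c • 1 - Φ₁ c := by
    intro c
    induction c using Finsupp.induction_linear with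
    | zero => simp
    | add c c' hc hc' => rw [map_add, map_add, map_add, hc, hc', add_smul]; abel
    | single g a => simp [Φ₁, Φ₂, τ₀, hstar_eq, smul_sub, smul_smul]
  have hker : LinearMap.ker Φ₁ ≤ LinearMap.ker Φ₂ := by
    intro c hc
    rw [LinearMap.mem_ker] at hc ⊢
    rw [hsum, hc, sub_zero]
    by_contra hs
    have hs' : τ₀ c ≠ 0 := fun h0 => hs (by rw [h0, zero_smul])
    obtain ⟨g₀, hg₀⟩ := exists_nonscalar M (by omega) hspan
    have h1 : Φ₁ (Finsupp.mapDomain (g₀⁻¹ * ·) c) = M g₀⁻¹ * Φ₁ c := by
      simp only [Φ₁, Finsupp.linearCombination_apply]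
      rw [Finsupp.sum_mapDomain_index (fun b => zero_smul k (M b)) (fun b m m' => add_smul m m' (M b)),
        Finsupp.mul_sum]
      simp only [map_mul, mul_smul_comm]
    have h2 : Φ₂ (Finsupp.mapDomain (g₀⁻¹ * ·) c) = Φ₂ c * star g₀⁻¹ := by
      simp only [Φ₂, Finsupp.linearCombination_apply]
      rw [Finsupp.sum_mapDomain_index (fun b => zero_smul k (star b)) (fun b m m' => add_smul m m' (star b)),
        Finsupp.sum_mul]
      simp only [hstar_mul, smul_mul_assoc]
    rw [hc, mul_zero] at h1
    rw [hsum, h1, sub_zero, hsum, hc, sub_zero, smul_mul_assoc, one_mul] at h2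
    simp only [hstar, inv_inv, smul_smul] at h2
    refine hg₀ ((τ₀ c * (δ g₀⁻¹ : kˣ))⁻¹ * τ₀ (Finsupp.mapDomain (g₀⁻¹ * ·) c)) ?_
    rw [mul_smul, h2, smul_smul, inv_mul_cancel₀ (mul_ne_zero hs' (Units.ne_zero _)), one_smul]
  have hsurj : LinearMap.range Φ₁ = ⊤ := by
    rw [Finsupp.range_linearCombination, hspan]
  let S : Matrix (Fin n) (Fin n) k →ₗ[k] Matrix (Fin n) (Fin n) k :=
    ((LinearMap.ker Φ₁).liftQ Φ₂ hker).comp
      (Φ₁.quotKerEquivOfSurjective (LinearMap.range_eq_top.mp hsurj)).symm.toLinearMap
  have hS : ∀ c, S (Φ₁ c) = Φ₂ c := by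
    intro c
    show (LinearMap.ker Φ₁).liftQ Φ₂ hker
      ((Φ₁.quotKerEquivOfSurjective (LinearMap.range_eq_top.mp hsurj)).symm (Φ₁ c)) = _
    rw [show (Φ₁.quotKerEquivOfSurjective (LinearMap.range_eq_top.mp hsurj)).symm (Φ₁ c) =
      Submodule.Quotient.mk c from (LinearEquiv.symm_apply_eq _).mpr rfl]
    rfl
  have hSg : ∀ g, S (M g) = star g := fun g => by
    simpa [Φ₁, Φ₂] using hS (Finsupp.single g 1)
  have hscal : ∀ x, ∃ s : k, S x = s • 1 - x := by
    intro x
    obtain ⟨c, rfl⟩ := LinearMap.range_eq_top.mp hsurj x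
    exact ⟨τ₀ c, by rw [hS, hsum]⟩
  have hSmul : ∀ x y, S (x * y) = S y * S x := by
    intro x y
    have hx : x ∈ Submodule.span k (Set.range M) := hspan ▸ Submodule.mem_top
    induction hx using Submodule.span_induction with
    | mem x hx =>
      obtain ⟨g, rfl⟩ := hx
      have hy : y ∈ Submodule.span k (Set.range M) := hspan ▸ Submodule.mem_top
      induction hy using Submodule.span_induction with
      | mem y hy =>
        obtain ⟨h, rfl⟩ := hy
        rw [← map_mul, hSg, hSg, hSg, hstar_mul]
      | zero => simp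
      | add a b _ _ ha hb => rw [mul_add, map_add, map_add, ha, hb, add_mul]
      | smul c a _ ha => rw [mul_smul_comm, map_smul, map_smul, ha, smul_mul_assoc]
    | zero => simp
    | add a b _ _ ha hb => rw [add_mul, map_add, map_add, ha, hb, mul_add]
    | smul c a _ ha => rw [smul_mul_assoc, map_smul, map_smul, ha, mul_smul_comm]
  set i : Fin n := ⟨0, by omega⟩
  set j : Fin n := ⟨1, by omega⟩
  set l : Fin n := ⟨2, by omega⟩
  have hij : i ≠ j := by simp [i, j]
  have hil : i ≠ l := by simp [i, l]
  have hjl : j ≠ l := by simp [j, l]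
  obtain ⟨sx, hx⟩ := hscal (Matrix.single i j 1)
  obtain ⟨sy, hy⟩ := hscal (Matrix.single j i 1)
  obtain ⟨sxy, hxy⟩ := hscal (Matrix.single i i 1)
  have key := hSmul (Matrix.single i j 1) (Matrix.single j i 1)
  rw [Matrix.single_mul_single_same, one_mul, hxy, hx, hy] at key
  simp only [sub_mul, mul_sub, smul_mul_assoc, mul_smul_comm, one_mul, mul_one,
    Matrix.single_mul_single_same, smul_smul] at key
  have e3 := congrFun (congrFun key l) l
  have e1 := congrFun (congrFun key i) i
  simp [Matrix.single_apply, hij, hil, hjl, hij.symm, hil.symm, hjl.symm] at e1 e3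
  simp [e3] at e1

theorem aeval_charpoly_fin_two (X : Matrix (Fin 2) (Fin 2) k) :
    X * X - X.trace • X + X.det • 1 = 0 := by
  have h := Matrix.aeval_self_charpoly X
  rw [Matrix.charpoly_fin_two] at h
  simp only [map_add, map_sub, map_mul, map_pow, Polynomial.aeval_X, Polynomial.aeval_C,
    Algebra.algebraMap_eq_smul_one, smul_mul_assoc, one_mul, pow_two] at h
  exact h

end Matrices

section Main

variable [IsAlgClosed k] {G : Type*} [Group G]

theorem exists_two_dim_of_matrix (δ : G →* kˣ) (M : G →* Matrix (Fin 2) (Fin 2) k)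
    (hspan : Submodule.span k (Set.range M) = ⊤)
    (hquad : ∀ g, ∃ t : k, M g * M g - t • M g + (δ g : k) • 1 = 0) :
    ∀ g, (M g).det = δ g ∧ ∀ a : k, M g * M g - a • M g + (δ g : k) • 1 = 0 →
      (M g).trace = a := by
  have hns : ∀ g, (∀ c : k, M g ≠ c • 1) → (M g).det = δ g := by
    intro g hg
    obtain ⟨t, ht⟩ := hquad g
    have h := aeval_charpoly_fin_two (M g)
    have h' : (t - (M g).trace) • M g = ((δ g : k) - (M g).det) • (1 : Matrix (Fin 2) (Fin 2) k) := by
      rw [sub_smul, sub_smul, ← sub_eq_zero]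
      linear_combination (norm := module) h - ht
    by_contra hne
    have ht' : t - (M g).trace ≠ 0 := by
      intro h0
      rw [h0, zero_smul] at h'
      have h00 := congrFun (congrFun h' 0) 0
      simp [sub_eq_zero] at h00
      exact hne (sub_eq_zero.mp h00.symm).symm
    exact hg ((t - (M g).trace)⁻¹ * ((δ g : k) - (M g).det)) (by
      rw [mul_smul, ← h', smul_smul, inv_mul_cancel₀ ht', one_smul])
  obtain ⟨g₀, hg₀⟩ := exists_nonscalar M le_rfl hspan
  have hdet : ∀ g, (M g).det = δ g := by
    intro g
    by_cases hg : ∀ c : k, M g ≠ c • 1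
    · exact hns g hg
    push Not at hg
    obtain ⟨c, hc⟩ := hg
    have hu : (M g).det * (M g⁻¹).det = 1 := by
      rw [← Matrix.det_mul, ← map_mul, mul_inv_cancel, map_one, Matrix.det_one]
    have hc0 : c ≠ 0 := by
      rintro rfl
      rw [hc, zero_smul, Matrix.det_zero, zero_mul] at hu
      exact zero_ne_one hu
    have h1 := hns (g * g₀) fun e he => hg₀ (c⁻¹ * e) (by
      rw [map_mul, hc, smul_mul_assoc, one_mul] at he
      rw [mul_smul, ← he, smul_smul, inv_mul_cancel₀ hc0, one_smul])
    rw [map_mul, Matrix.det_mul, hns g₀ hg₀, map_mul, Units.val_mul] at h1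
    exact mul_right_cancel₀ (Units.ne_zero _) h1
  refine fun g => ⟨hdet g, fun a ha => ?_⟩
  have h := aeval_charpoly_fin_two (M g)
  rw [hdet g] at h
  have h' : (a - (M g).trace) • M g = 0 := by
    linear_combination (norm := module) h - ha
  rcases smul_eq_zero.mp h' with h0 | h0
  · exact (sub_eq_zero.mp h0).symm
  · have hd := hdet g
    rw [h0, Matrix.det_zero] at hd
    exact absurd hd.symm (Units.ne_zero _)

/-- The two-dimensional representation attached to a family of quadratic relations. -/
theorem exists_two_dim_rep {V : Type*} [AddCommGroup V] [Module k V] [FiniteDimensional k V]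
    [Nontrivial V] (r : G →* Module.End k V) (δ : G →* kˣ)
    (hquad : ∀ g, ∃ t : k, r g * r g - t • r g + (δ g : k) • (1 : Module.End k V) = 0) :
    ∃ ρ : G →* GL (Fin 2) k,
      ((∀ v : Fin 2 → k, v ≠ 0 → ∃ g : G, ∀ c : k,
          ((ρ g : GL (Fin 2) k) : Matrix (Fin 2) (Fin 2) k).mulVec v ≠ c • v) ∨
        ∀ g : G, ((ρ g : GL (Fin 2) k) : Matrix (Fin 2) (Fin 2) k).IsDiag) ∧
      (∀ g, r g = 1 → δ g = 1 → ρ g = 1) ∧
      ∀ g, ((ρ g : GL (Fin 2) k) : Matrix (Fin 2) (Fin 2) k).det = δ g ∧
        ∀ a : k, r g * r g - a • r g + (δ g : k) • 1 = 0 →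
          ((ρ g : GL (Fin 2) k) : Matrix (Fin 2) (Fin 2) k).trace = a := by
  classical
  obtain ⟨W, ⟨hW0, hWst⟩, hmin⟩ := (IsWellFounded.wf (r := (· < · : Submodule k V → _ → Prop))).has_min
    {W : Submodule k V | W ≠ ⊥ ∧ ∀ g, ∀ x ∈ W, r g x ∈ W} ⟨⊤, top_ne_bot, fun g x _ => Submodule.mem_top⟩
  let rW : G →* Module.End k W :=
    { toFun := fun g => (r g).restrict (hWst g)
      map_one' := by ext x; simp
      map_mul' := fun g h => by ext x; simp }
  have hrW : ∀ g (x : W), ((rW g x : W) : V) = r g x := fun g x => rfl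
  have hquadW : ∀ (g : G) (a : k), r g * r g - a • r g + (δ g : k) • 1 = 0 →
      rW g * rW g - a • rW g + (δ g : k) • 1 = 0 := by
    intro g a ha
    ext x
    simpa [hrW] using LinearMap.congr_fun ha (x : V)
  have : Nontrivial W := Submodule.nontrivial_iff_ne_bot.mpr hW0
  have hirr : ∀ U : Submodule k W, (∀ g, ∀ x ∈ U, rW g x ∈ U) → U = ⊥ ∨ U = ⊤ := by
    intro U hU
    by_cases hU0 : U = ⊥
    · exact Or.inl hU0
    right
    have h := hmin (U.map W.subtype) ⟨by
        exact fun h0 => hU0 (Submodule.map_injective_of_injective W.injective_subtype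
          (h0.trans (Submodule.map_bot _).symm)), by
      rintro g _ ⟨x, hx, rfl⟩
      exact ⟨rW g x, hU g x hx, rfl⟩⟩
    have hle : U.map W.subtype ≤ W := by
      rintro _ ⟨x, -, rfl⟩
      exact x.2
    have heq : U.map W.subtype = W := by
      rcases hle.eq_or_lt with he | hlt
      · exact he
      · exact absurd hlt h
    exact Submodule.map_injective_of_injective W.injective_subtype
      (heq.trans (Submodule.map_subtype_top W).symm)
  rcases lt_or_ge (Module.finrank k W) 2 with h1 | h2
  · -- a character
    have hfr : Module.finrank k W = 1 := by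
      have := Module.finrank_pos (R := k) (M := W)
      omega
    let b := Module.finBasisOfFinrankEq k W hfr
    have hact : ∀ g, rW g (b 0) = b.repr (rW g (b 0)) 0 • b 0 := fun g => by
      conv_lhs => rw [← b.sum_repr (rW g (b 0)), Fin.sum_univ_one]
    let ψ : G →* k :=
      { toFun := fun g => b.repr (rW g (b 0)) 0
        map_one' := by simp
        map_mul' := fun g h => by
          conv_lhs => rw [map_mul, Module.End.mul_apply, hact h, map_smul, map_smul,
            Finsupp.smul_apply, smul_eq_mul]
          exact mul_comm _ _ }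
    let ψu : G →* kˣ := ψ.toHomUnits
    let D : G →* (Fin 2 → k) :=
      { toFun := fun g => ![(ψu g : k), ((ψu g)⁻¹ * δ g : kˣ)]
        map_one' := by ext i; fin_cases i <;> simp
        map_mul' := fun g h => by
          ext i; fin_cases i
          · simp
          · simp only [map_mul, mul_inv, Units.val_mul, Pi.mul_apply, Fin.mk_one, Matrix.cons_val_one,
              Matrix.cons_val_fin_one]
            ring }
    let ρ : G →* GL (Fin 2) k :=
      (((Matrix.diagonalRingHom (Fin 2) k).toMonoidHom).comp D).toHomUnits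
    have hρ : ∀ g, ((ρ g : GL (Fin 2) k) : Matrix (Fin 2) (Fin 2) k) =
        Matrix.diagonal ![(ψu g : k), ((ψu g)⁻¹ * δ g : kˣ)] := fun g => rfl
    have hψu : ∀ g, (ψu g : k) = b.repr (rW g (b 0)) 0 := fun g => rfl
    refine ⟨ρ, Or.inr fun g => by rw [hρ]; exact Matrix.isDiag_diagonal _, fun g hr hδ => ?_,
      fun g => ?_⟩
    · have hrw : rW g = 1 := LinearMap.ext fun x => Subtype.ext (by rw [hrW, hr]; rfl)
      have hψ1 : ψu g = 1 := Units.ext (by rw [hψu, hrw]; simp)
      refine Units.ext ?_
      rw [hρ, hψ1, hδ]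
      ext i j
      fin_cases i <;> fin_cases j <;> simp [Matrix.diagonal]
    · refine ⟨by rw [hρ, Matrix.det_diagonal, Fin.prod_univ_two]; simp, fun a ha => ?_⟩
      have h := LinearMap.congr_fun (hquadW g a ha) (b 0)
      simp only [LinearMap.add_apply, LinearMap.sub_apply, Module.End.mul_apply,
        LinearMap.smul_apply, Module.End.one_apply, LinearMap.zero_apply] at h
      rw [hact g, map_smul, hact g, smul_smul, smul_smul, ← sub_smul, ← add_smul, smul_eq_zero,
        or_iff_left (b.ne_zero 0), ← hψu] at h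
      simp only [map_smul, b.repr_self, Finsupp.smul_apply, Finsupp.single_eq_same, smul_eq_mul,
        mul_one] at h
      rw [hρ, Matrix.trace_diagonal, Fin.sum_univ_two]
      simp only [Matrix.cons_val_zero, Matrix.cons_val_one, Units.val_mul, Units.val_inv_eq_inv_val]
      field_simp
      linear_combination h
  · -- irreducible
    let b := Module.finBasis k W
    let e := LinearMap.toMatrixAlgEquiv b
    let M : G →* Matrix (Fin (Module.finrank k W)) (Fin (Module.finrank k W)) k :=
      e.toAlgHom.toRingHom.toMonoidHom.comp rW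
    have hspan : Submodule.span k (Set.range M) = ⊤ := by
      have h := Deformation.span_range_eq_top_of_irreducible rW hirr
      have := congrArg (Submodule.map e.toLinearMap) h
      have hr : LinearMap.range e.toLinearMap = ⊤ := LinearMap.range_eq_top.mpr e.surjective
      rw [Submodule.map_span, Submodule.map_top, hr] at this
      rw [← this, ← Set.range_comp]
      rfl
    have hquadM : ∀ (g : G) (a : k), r g * r g - a • r g + (δ g : k) • 1 = 0 →
        M g * M g - a • M g + (δ g : k) • 1 = 0 := by
      intro g a ha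
      simpa [M] using congrArg e (hquadW g a ha)
    have hle := dim_le_two δ M hspan fun g => (hquad g).imp fun t ht => hquadM g t ht
    have hn : Module.finrank k W = 2 := le_antisymm hle h2
    let b' := Module.finBasisOfFinrankEq k W hn
    let e' := LinearMap.toMatrixAlgEquiv b'
    let M' : G →* Matrix (Fin 2) (Fin 2) k := e'.toAlgHom.toRingHom.toMonoidHom.comp rW
    have hspan' : Submodule.span k (Set.range M') = ⊤ := by
      have h := Deformation.span_range_eq_top_of_irreducible rW hirr
      have := congrArg (Submodule.map e'.toLinearMap) h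
      have hr : LinearMap.range e'.toLinearMap = ⊤ := LinearMap.range_eq_top.mpr e'.surjective
      rw [Submodule.map_span, Submodule.map_top, hr] at this
      rw [← this, ← Set.range_comp]
      rfl
    have hquadM' : ∀ (g : G) (a : k), r g * r g - a • r g + (δ g : k) • 1 = 0 →
        M' g * M' g - a • M' g + (δ g : k) • 1 = 0 := by
      intro g a ha
      simpa [M'] using congrArg e' (hquadW g a ha)
    have hmain := exists_two_dim_of_matrix δ M' hspan'
      fun g => (hquad g).imp fun t ht => hquadM' g t ht
    refine ⟨M'.toHomUnits, Or.inl fun v hv => ?_, fun g hr hδ => ?_,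
      fun g => ⟨(hmain g).1, fun a ha => (hmain g).2 a (hquadM' g a ha)⟩⟩
    · by_contra hcon
      push Not at hcon
      have hall : ∀ X : Matrix (Fin 2) (Fin 2) k, ∃ c : k, X.mulVec v = c • v := by
        intro X
        have hX : X ∈ Submodule.span k (Set.range M') := hspan' ▸ Submodule.mem_top
        induction hX using Submodule.span_induction with
        | mem X hX =>
          obtain ⟨g, rfl⟩ := hX
          exact hcon g
        | zero => exact ⟨0, by simp⟩
        | add A B _ _ hA hB =>
          obtain ⟨a, ha⟩ := hA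
          obtain ⟨c, hc⟩ := hB
          exact ⟨a + c, by rw [Matrix.add_mulVec, ha, hc, add_smul]⟩
        | smul a A _ hA =>
          obtain ⟨c, hc⟩ := hA
          exact ⟨a * c, by rw [Matrix.smul_mulVec, hc, smul_smul]⟩
      apply hv
      obtain ⟨c, hc⟩ := hall !![0, 1; 0, 0]
      obtain ⟨c', hc'⟩ := hall !![0, 0; 1, 0]
      have a0 := congrFun hc 0
      have a1 := congrFun hc 1
      have b0 := congrFun hc' 0
      have b1 := congrFun hc' 1
      simp [Matrix.mulVec, dotProduct, Fin.sum_univ_two] at a0 a1 b0 b1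
      have hc1 : v 1 = 0 := by
        rcases a1 with h | h
        · rw [h, zero_mul] at a0; exact a0
        · exact h
      have hc0 : v 0 = 0 := by rw [b1, hc1, mul_zero]
      ext i; fin_cases i <;> assumption
    · have hrw : rW g = 1 := LinearMap.ext fun x => Subtype.ext (by rw [hrW, hr]; rfl)
      refine Units.ext ?_
      show M' g = 1
      simp [M', hrw]

end Main

end Fermat.Agent.DeligneSerre.Residual
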